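/-
Programme T1B (S44), J-BRIDGE, brick (B2) DICT-FINAL-GEN (helper39): the INPUT.

`ChartIsoFamilyN A N K c0`: the twin of helper59's `Dict59.ChartIsoFamily` with INDEPENDENT level `N`
and field of constants `K` (`W = A ∩ K`, `A` any valuation ring of `ℚ̄`; in T1B: `A = padicPlace p`,
`N = M'p`, `K` an inertial number field containing `ζ_{M'}` but not `ζ_p`), `c0` ANY two-chart datum
over `W`, and the chart system FIXED by the Galois group (only `σ ∈ G_ℚ` fixing `K` pointwise are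
considered, acting as the identity on the `B_j`).

For every finite NORMAL `L ⊇ K` inside `ℚ̄` (normal over `ℚ`; the nodal models of (B1) only exist
over such `L`): a coordinate `t_L` of `L·F_N` and an identification
`E_L : ChartIso (c0.baseChange L) t_L` of the charts `L ⊗[W] B_j` with the field-level charts
`C_j(L)`, compatible with enlarging `L` (on pure tensors `1 ⊗ b`) and with `Gal(ℚ̄/K)`.
(To be inhabited for the nodal datum by brick (B1) CHARTISO-N; a STANDARD `E_L`
(`E_L.ι_j (a ⊗ b) = a • cLL b`) satisfies all the compatibilities.)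
-/
import Mathlib
import Fermat.Agent.T1.HubInst98.Incl
import Fermat.Agent.T1.HubInst98.Galois
import Fermat.Agent.T1.Adapt96.ToLinePair
import Fermat.Agent.T1.Dict59.Iface2
import Fermat.Agent.T1.RedIface75

set_option autoImplicit false
set_option linter.unusedSectionVars false
set_option linter.style.haveILetI false
set_option synthInstance.maxHeartbeats 400000
set_option maxHeartbeats 1000000

noncomputable section

open TensorProduct IntermediateField

namespace Fermat.Agent.T1B.Bridge39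

open Fermat.Agent Fermat.Agent.Jac Fermat.Agent.T1.HubInst98
open Fermat.Agent.RED.Interface4 Fermat.Agent.T1.Adapt96 Fermat.Agent.T1.Dict59
open Fermat.Agent.Jac.BaseChange75
open scoped Fermat.Agent.Jac.BaseChange75

variable (A : ValuationSubring Qbar) (N : ℕ) [NeZero N] (K : IntermediateField ℚ Qbar)
  {B0 B1 B01 : Type} [CommRing B0] [CommRing B1] [CommRing B01]
  [Algebra (AK A K) B0] [Algebra (AK A K) B1] [Algebra (AK A K) B01] [Algebra B0 B01]
  [Algebra B1 B01] [IsScalarTower (AK A K) B0 B01] [IsScalarTower (AK A K) B1 B01]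
  (c0 : TwoChart (AK A K) B0 B1 B01)

/-- **The chart isomorphisms of a two-chart datum over `W = A ∩ K`** at level `N`, with their
compatibilities (tower; invariance under `Gal(ℚ̄/K)`). -/
structure ChartIsoFamilyN where
  /-- the coordinate over `L` -/
  t : ∀ (L : IntermediateField ℚ Qbar) [FiniteDimensional ℚ L] [Normal ℚ L] (_ : K ≤ L), FK N L
  isCoord : ∀ (L : IntermediateField ℚ Qbar) [FiniteDimensional ℚ L] [Normal ℚ L] (hle : K ≤ L),
    IsCoord N (t L hle)
  /-- the chart isomorphisms over `L` -/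
  E : ∀ (L : IntermediateField ℚ Qbar) [FiniteDimensional ℚ L] [Normal ℚ L] (hle : K ≤ L),
    letI := algAKL A hle
    ChartIso (c0.baseChange ↥L) (t L hle)
  t_tower : ∀ (L₁ L : IntermediateField ℚ Qbar) [FiniteDimensional ℚ L₁] [FiniteDimensional ℚ L]
      [Normal ℚ L₁] [Normal ℚ L] (hle₁ : K ≤ L₁) (hL : L₁ ≤ L),
    t L (hle₁.trans hL) = cLL N hL (t L₁ hle₁)
  tower0 : ∀ (L₁ L : IntermediateField ℚ Qbar) [FiniteDimensional ℚ L₁] [FiniteDimensional ℚ L]
      [Normal ℚ L₁] [Normal ℚ L] (hle₁ : K ≤ L₁) (hL : L₁ ≤ L) (b : B0),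
    (letI := algAKL A (hle₁.trans hL)
     (E L (hle₁.trans hL)).ι0 ((1 : ↥L) ⊗ₜ[AK A K] b)) =
    cLL N hL (letI := algAKL A hle₁
      (E L₁ hle₁).ι0 ((1 : ↥L₁) ⊗ₜ[AK A K] b))
  tower1 : ∀ (L₁ L : IntermediateField ℚ Qbar) [FiniteDimensional ℚ L₁] [FiniteDimensional ℚ L]
      [Normal ℚ L₁] [Normal ℚ L] (hle₁ : K ≤ L₁) (hL : L₁ ≤ L) (b : B1),
    (letI := algAKL A (hle₁.trans hL)
     (E L (hle₁.trans hL)).ι1 ((1 : ↥L) ⊗ₜ[AK A K] b)) =
    cLL N hL (letI := algAKL A hle₁
      (E L₁ hle₁).ι1 ((1 : ↥L₁) ⊗ₜ[AK A K] b))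
  t_gal : ∀ (L : IntermediateField ℚ Qbar) [FiniteDimensional ℚ L] [Normal ℚ L] (hle : K ≤ L)
      (σ : GQ), (∀ a ∈ K, σ a = a) →
    arith N L (resL L σ) (t L hle) = t L hle
  gal0 : ∀ (L : IntermediateField ℚ Qbar) [FiniteDimensional ℚ L] [Normal ℚ L] (hle : K ≤ L)
      (σ : GQ), (∀ a ∈ K, σ a = a) → ∀ b : B0,
    arith N L (resL L σ)
      (letI := algAKL A hle
       (E L hle).ι0 ((1 : ↥L) ⊗ₜ[AK A K] b)) =
    (letI := algAKL A hle
     (E L hle).ι0 ((1 : ↥L) ⊗ₜ[AK A K] b))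
  gal1 : ∀ (L : IntermediateField ℚ Qbar) [FiniteDimensional ℚ L] [Normal ℚ L] (hle : K ≤ L)
      (σ : GQ), (∀ a ∈ K, σ a = a) → ∀ b : B1,
    arith N L (resL L σ)
      (letI := algAKL A hle
       (E L hle).ι1 ((1 : ↥L) ⊗ₜ[AK A K] b)) =
    (letI := algAKL A hle
     (E L hle).ι1 ((1 : ↥L) ⊗ₜ[AK A K] b))

end Fermat.Agent.T1B.Bridge39
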