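/-
Programme T1B (S44), J-BRIDGE, brick (B2) DICT-FINAL-GEN (helper39): ONE LEVEL `L`.

Generic in the two-chart datum: `c0 : TwoChart W B0 B1 B01` over ANY base ring `W`, `L ⊂ ℚ̄` with
`[Algebra W L]`, `t : FK N L` a coordinate, `E : ChartIso (c0.baseChange L) t`, Dedekind charts.
On top of helper59's `Dict59/LevelMap.lean` (`dmap X = ∏ [O(-w)]^{X(w)}`):

* `pic0_mk_eq_iff`        : `Pic0.mk X = Pic0.mk X' ↔ X - X'` principal;
* `exists_pairs_dmap`     : `dmap X · cl D_B = cl D_A` with `divL (lp D_B) - divL (lp D_A) = X`;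
* `dmap_eq_cl`            : `dmap X = cl D` as soon as `divL (lp D) = -X + div g`
                            (NO rationality assumption on the support of `divL (lp D)`);
* `dOf X := dmap (-X)`    : the class of "`O(X)`", `dOf_add`, `dOf_mem_picPt`, `dOf_eq_iff`,
  `dOf_eq_one_iff`, `dOf_eq_cl` : **`dOf X = cl D` when `divL (lp D) ∼ X`** (JSpec at one level).
-/
import Mathlib
import Fermat.Agent.T1.Dict59.LevelMap

set_option autoImplicit false
set_option linter.unusedSectionVars false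
set_option linter.style.haveILetI false
set_option synthInstance.maxHeartbeats 400000
set_option maxHeartbeats 1000000

noncomputable section

open HahnSeries AlgebraicCurve ModularCurve IntermediateField TensorProduct
open Fermat.Agent.RED.Interface4
open Fermat.Agent.Jac Fermat.Agent.Jac.LineOps39 Fermat.Agent.Jac.JGroup85Pic
open Fermat.Agent.Jac.AbelJacobi73 Fermat.Agent.T1.Adapt96 Fermat.Agent.T1.Adapt39
open Fermat.Agent.Jac.BaseChange75 Fermat.Agent.T1.RedIface75 Fermat.Agent.T1.PtLine75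
open Fermat.Agent.T1.Dict59
open scoped Fermat.Agent.Jac.BaseChange75

namespace Fermat.Agent.T1B.Bridge39

/-! ### Equality in `Pic⁰` -/

section Pic0

variable {K F : Type*} [Field K] [Field F] [Algebra K F]

theorem pic0_mk_eq_iff (X X' : Divisor.degZero (K := K) (F := F)) :
    Pic0.mk X = Pic0.mk X' ↔
      ∃ g : F, g ≠ 0 ∧ ∀ w : Place K F, (X : Divisor K F) w - (X' : Divisor K F) w = w.ord g := by
  unfold Pic0.mk
  rw [QuotientAddGroup.eq, AddSubgroup.mem_addSubgroupOf, Divisor.mem_principal]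
  constructor
  · rintro ⟨g, hg, h⟩
    refine ⟨g⁻¹, inv_ne_zero hg, fun w => ?_⟩
    have := h w
    rw [AddSubgroup.coe_add, AddSubgroup.coe_neg, Finsupp.add_apply, Finsupp.neg_apply] at this
    rw [w.ord_inv]
    omega
  · rintro ⟨g, hg, h⟩
    refine ⟨g⁻¹, inv_ne_zero hg, fun w => ?_⟩
    have := h w
    rw [AddSubgroup.coe_add, AddSubgroup.coe_neg, Finsupp.add_apply, Finsupp.neg_apply,
      w.ord_inv]
    omega

end Pic0

variable {W B0 B1 B01 : Type} [CommRing W] [CommRing B0] [CommRing B1] [CommRing B01]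
  [Algebra W B0] [Algebra W B1] [Algebra W B01] [Algebra B0 B01] [Algebra B1 B01]
  [IsScalarTower W B0 B01] [IsScalarTower W B1 B01]
  {c0 : TwoChart W B0 B1 B01}
  {N : ℕ} [NeZero N] {L : IntermediateField ℚ Qbar} [Algebra W L] {t : FK N L}
  (ht : IsCoord N t) (E : ChartIso (c0.baseChange L) t)
  [IsDedekindDomain (L ⊗[W] B0)] [IsDedekindDomain (L ⊗[W] B1)]
  (PF : PtFacts c0 E)

/-- `dmap X` is a quotient of the classes of two integral ideal pairs with prescribed divisors. -/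
theorem exists_pairs_dmap (X : Divisor Qbar (Fbar N)) (hX : ∀ w, X w ≠ 0 → IsRatPlace L w) :
    ∃ (DA DB : IdealPair (L ⊗[W] B0) (L ⊗[W] B1) (L ⊗[W] B01)) (hA : PairNeBot DA)
      (hB : PairNeBot DB),
      LevelMap.dmap ht E PF X * Eff.cl (c0.baseChange L) DB hB = Eff.cl (c0.baseChange L) DA hA ∧
      LinePair.divL (Eff.lp E DB hB) - LinePair.divL (Eff.lp E DA hA) = X := by
  obtain ⟨A, B, hAB⟩ := Eff.exists_natCast_sub (Finsupp.subtypeDomain (IsRatPlace L) X)
  obtain ⟨DA, hA, hA1, hA2⟩ := Eff.exists_pair E (LevelMap.ptIP E PF)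
    (LevelMap.pairNeBot_ptIP ht E PF) (fun i : RatPl N L => i.1) ht
    (LevelMap.divL_ptIP ht E PF) A
  obtain ⟨DB, hB, hB1, hB2⟩ := Eff.exists_pair E (LevelMap.ptIP E PF)
    (LevelMap.pairNeBot_ptIP ht E PF) (fun i : RatPl N L => i.1) ht
    (LevelMap.divL_ptIP ht E PF) B
  refine ⟨DA, DB, hA, hB, ?_, ?_⟩
  · unfold LevelMap.dmap
    rw [hAB, map_sub, ← hA1, ← hB1, toMul_sub, toMul_ofMul, toMul_ofMul, div_mul_cancel]
  · have h1 := Eff.zDiv_subtypeDomain (IsRatPlace L) X hX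
    rw [hAB, map_sub] at h1
    rw [hA2, hB2, ← h1]
    abel

/-- **`dmap X = cl D` as soon as `divL (lp D) = -X + div g`.**  No rationality assumption on the
support of `divL (lp D)`. -/
theorem dmap_eq_cl (X : Divisor Qbar (Fbar N)) (hX : ∀ w, X w ≠ 0 → IsRatPlace L w)
    (D : IdealPair (L ⊗[W] B0) (L ⊗[W] B1) (L ⊗[W] B01)) (h : PairNeBot D)
    (g : Fbar N) (hg : g ≠ 0)
    (hdiv : ∀ w : Place Qbar (Fbar N), LinePair.divL (Eff.lp E D h) w = - X w + w.ord g) :
    LevelMap.dmap ht E PF X = Eff.cl (c0.baseChange L) D h := by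
  obtain ⟨DA, DB, hA, hB, h1, h2⟩ := exists_pairs_dmap ht E PF X hX
  have h3 : Eff.cl (c0.baseChange L) (D.mul DB) (h.mul hB) = Eff.cl (c0.baseChange L) DA hA := by
    rw [Eff.cl_eq_iff E ht]
    refine ⟨g, hg, fun w => ?_⟩
    rw [Eff.divL_lp_mul E ht D DB h hB, Finsupp.add_apply, hdiv w]
    have h4 := DFunLike.congr_fun h2 w
    rw [Finsupp.sub_apply] at h4
    omega
  rw [Eff.cl_mul D DB h hB] at h3
  exact mul_right_cancel (h1.trans h3.symm)

/-! ### `dOf X`: the class of `O(X)` -/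

/-- **The class of `O(X)`** (`X` a divisor of `ℚ̄·F_N`; only its `L`-rational part counts):
`dOf X = ∏ [O(-w)]^{-X(w)}`. -/
def dOf (X : Divisor Qbar (Fbar N)) : PicX c0 L := LevelMap.dmap ht E PF (-X)

theorem dOf_add (X X' : Divisor Qbar (Fbar N)) :
    dOf ht E PF (X + X') = dOf ht E PF X * dOf ht E PF X' := by
  unfold dOf
  rw [neg_add, LevelMap.dmap_add]

theorem dOf_zero : dOf ht E PF 0 = 1 := by
  have h := dOf_add ht E PF 0 0
  rw [add_zero] at h
  exact (mul_eq_left.1 h.symm)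

theorem dOf_mem_picPt (X : Divisor Qbar (Fbar N)) :
    dOf ht E PF X ∈ (pointClasses c0).PicPt L :=
  LevelMap.dmap_mem_picPt ht E PF _

theorem neg_ne_zero_imp {X : Divisor Qbar (Fbar N)} (hX : ∀ w, X w ≠ 0 → IsRatPlace L w) :
    ∀ w, (-X) w ≠ 0 → IsRatPlace L w := by
  intro w hw
  apply hX w
  rw [Finsupp.neg_apply] at hw
  exact fun h => hw (by rw [h, neg_zero])

/-- The kernel of `dOf` on divisors supported at `L`-rational places = principal divisors. -/
theorem dOf_eq_one_iff (X : Divisor Qbar (Fbar N)) (hX : ∀ w, X w ≠ 0 → IsRatPlace L w) :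
    dOf ht E PF X = 1 ↔ ∃ g : Fbar N, g ≠ 0 ∧ ∀ w : Place Qbar (Fbar N), X w = w.ord g := by
  unfold dOf
  rw [LevelMap.dmap_eq_one_iff ht E PF _ (neg_ne_zero_imp hX)]
  constructor
  · rintro ⟨g, hg, h⟩
    refine ⟨g⁻¹, inv_ne_zero hg, fun w => ?_⟩
    have := h w
    rw [Finsupp.neg_apply] at this
    rw [w.ord_inv]
    omega
  · rintro ⟨g, hg, h⟩
    refine ⟨g⁻¹, inv_ne_zero hg, fun w => ?_⟩
    rw [Finsupp.neg_apply, w.ord_inv, h w]

/-- Equality of classes = linear equivalence, for divisors supported at `L`-rational places. -/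
theorem dOf_eq_iff (X X' : Divisor Qbar (Fbar N)) (hX : ∀ w, X w ≠ 0 → IsRatPlace L w)
    (hX' : ∀ w, X' w ≠ 0 → IsRatPlace L w) :
    dOf ht E PF X = dOf ht E PF X' ↔
      ∃ g : Fbar N, g ≠ 0 ∧ ∀ w : Place Qbar (Fbar N), X w - X' w = w.ord g := by
  unfold dOf
  rw [LevelMap.dmap_eq_iff ht E PF _ _ (neg_ne_zero_imp hX) (neg_ne_zero_imp hX')]
  constructor
  · rintro ⟨g, hg, h⟩
    refine ⟨g⁻¹, inv_ne_zero hg, fun w => ?_⟩
    have := h w
    rw [Finsupp.neg_apply, Finsupp.neg_apply] at this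
    rw [w.ord_inv]
    omega
  · rintro ⟨g, hg, h⟩
    refine ⟨g⁻¹, inv_ne_zero hg, fun w => ?_⟩
    have := h w
    rw [Finsupp.neg_apply, Finsupp.neg_apply, w.ord_inv]
    omega

/-- **JSpec at one level**: `dOf X` is the class of the ideal sheaf of any ideal pair `D` whose
line pair has divisor linearly equivalent to `X`. -/
theorem dOf_eq_cl (X : Divisor Qbar (Fbar N)) (hX : ∀ w, X w ≠ 0 → IsRatPlace L w)
    (D : IdealPair (L ⊗[W] B0) (L ⊗[W] B1) (L ⊗[W] B01)) (h : PairNeBot D)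
    (g : Fbar N) (hg : g ≠ 0)
    (hdiv : ∀ w : Place Qbar (Fbar N), LinePair.divL (Eff.lp E D h) w - X w = w.ord g) :
    dOf ht E PF X = Eff.cl (c0.baseChange L) D h := by
  unfold dOf
  refine dmap_eq_cl ht E PF (-X) (neg_ne_zero_imp hX) D h g hg fun w => ?_
  have := hdiv w
  rw [Finsupp.neg_apply]
  omega

/-- **JSpec-2 at one level**: `dOf X = cl D_A * (cl D_B)⁻¹` for any two ideal pairs with
`divL (lp D_A) - divL (lp D_B) ∼ X`. -/
theorem dOf_eq_cl_div (X : Divisor Qbar (Fbar N)) (hX : ∀ w, X w ≠ 0 → IsRatPlace L w)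
    (DA DB : IdealPair (L ⊗[W] B0) (L ⊗[W] B1) (L ⊗[W] B01)) (hA : PairNeBot DA)
    (hB : PairNeBot DB) (g : Fbar N) (hg : g ≠ 0)
    (hdiv : ∀ w : Place Qbar (Fbar N),
      LinePair.divL (Eff.lp E DA hA) w - LinePair.divL (Eff.lp E DB hB) w - X w = w.ord g) :
    dOf ht E PF X =
      Eff.cl (c0.baseChange L) DA hA * (Eff.cl (c0.baseChange L) DB hB)⁻¹ := by
  obtain ⟨DA', DB', hA', hB', h1, h2⟩ := exists_pairs_dmap ht E PF (-X) (neg_ne_zero_imp hX)
  have h3 : Eff.cl (c0.baseChange L) (DA.mul DB') (hA.mul hB') =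
      Eff.cl (c0.baseChange L) (DA'.mul DB) (hA'.mul hB) := by
    rw [Eff.cl_eq_iff E ht]
    refine ⟨g, hg, fun w => ?_⟩
    rw [Eff.divL_lp_mul E ht DA' DB hA' hB, Eff.divL_lp_mul E ht DA DB' hA hB', Finsupp.add_apply,
      Finsupp.add_apply]
    have h4 := DFunLike.congr_fun h2 w
    rw [Finsupp.sub_apply, Finsupp.neg_apply] at h4
    have h5 := hdiv w
    omega
  rw [Eff.cl_mul DA DB' hA hB', Eff.cl_mul DA' DB hA' hB] at h3
  unfold dOf
  rw [eq_mul_inv_iff_mul_eq]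
  apply mul_right_cancel (b := Eff.cl (c0.baseChange L) DB' hB')
  rw [mul_right_comm, h1, h3]

end Fermat.Agent.T1B.Bridge39
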