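/-
Programme T1B (S44), J-BRIDGE, brick (B2) DICT-FINAL-GEN (helper39): base change and Galois
equivariance of `dOf` at the generic level (on top of helper59's `Dict59/LevelBC.lean`,
`Dict59/LevelGal.lean`).

* `map_dOf`    : `PicX.map c0 L₁ L (dOf₁ X) = dOf X` for `X` supported at `L₁`-rational places;
* `actPic_dOf` : `actPic H R g (dOf X) = dOf (σ • X)`.
-/
import Mathlib
import Fermat.Agent.T1B.Bridge39.LevelD
import Fermat.Agent.T1.Dict59.LevelBC
import Fermat.Agent.T1.Dict59.LevelGal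

set_option autoImplicit false
set_option linter.unusedSectionVars false
set_option linter.style.haveILetI false
set_option synthInstance.maxHeartbeats 400000
set_option maxHeartbeats 1000000

noncomputable section

open HahnSeries AlgebraicCurve ModularCurve IntermediateField TensorProduct
open Fermat.Agent.RED.Interface4
open Fermat.Agent.Jac Fermat.Agent.Jac.LineOps39 Fermat.Agent.Jac.JGroup85Pic
open Fermat.Agent.Jac.AbelJacobi73 Fermat.Agent.T1.Adapt96 Fermat.Agent.T1.Adapt39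
open Fermat.Agent.Jac.BaseChange75 Fermat.Agent.T1.RedIface75 Fermat.Agent.T1.PtLine75
open Fermat.Agent.T1.GalAct44 Fermat.Agent.T1.Dict67
open Fermat.Agent.T1.Dict59
open scoped Fermat.Agent.Jac.BaseChange75

namespace Fermat.Agent.T1B.Bridge39

variable {W B0 B1 B01 : Type} [CommRing W] [CommRing B0] [CommRing B1] [CommRing B01]
  [Algebra W B0] [Algebra W B1] [Algebra W B01] [Algebra B0 B01] [Algebra B1 B01]
  [IsScalarTower W B0 B01] [IsScalarTower W B1 B01]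
  {c0 : TwoChart W B0 B1 B01}
  {N : ℕ} [NeZero N]

section BC

variable {L₁ L : IntermediateField ℚ Qbar} (hL : L₁ ≤ L)
  [Algebra W L₁] [Algebra W L] [Algebra L₁ L] [IsScalarTower W L₁ L]
  (halg : ∀ a : L₁, algebraMap L₁ L a = IntermediateField.inclusion hL a)
  {t₁ : FK N L₁} {t : FK N L}
  (ht₁ : IsCoord N t₁) (ht : IsCoord N t)
  (E₁ : ChartIso (c0.baseChange L₁) t₁) (E : ChartIso (c0.baseChange L) t)
  [IsDedekindDomain (L₁ ⊗[W] B0)] [IsDedekindDomain (L₁ ⊗[W] B1)]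
  [IsDedekindDomain (L ⊗[W] B0)] [IsDedekindDomain (L ⊗[W] B1)]
  (PF₁ : PtFacts c0 E₁) (PF : PtFacts c0 E)
  (htt : t = cLL N hL t₁)
  (hc0 : ∀ b : B0, E.ι0 ((1 : L) ⊗ₜ[W] b) = cLL N hL (E₁.ι0 ((1 : L₁) ⊗ₜ[W] b)))
  (hc1 : ∀ b : B1, E.ι1 ((1 : L) ⊗ₜ[W] b) = cLL N hL (E₁.ι1 ((1 : L₁) ⊗ₜ[W] b)))

include halg htt hc0 hc1 in
/-- **Base change of `dOf`.** -/
theorem map_dOf (X : Divisor Qbar (Fbar N)) (hX : ∀ w, X w ≠ 0 → IsRatPlace L₁ w) :
    PicX.map c0 L₁ L (dOf ht₁ E₁ PF₁ X) = dOf ht E PF X :=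
  LevelMap.map_dmap hL halg ht₁ ht E₁ E PF₁ PF htt hc0 hc1 (-X) (neg_ne_zero_imp hX)

end BC

section Gal

variable {L : IntermediateField ℚ Qbar} [Normal ℚ L] [Algebra W L] {t : FK N L}
  (ht : IsCoord N t) (E : ChartIso (c0.baseChange L) t)
  [IsDedekindDomain (L ⊗[W] B0)] [IsDedekindDomain (L ⊗[W] B1)]
  (PF : PtFacts c0 E)
  {G : Type} [Group G] (H : ChartAction c0 G) (R : SemiAction H L)
  (g : G) (σ : GQ) (hR : ∀ a : L, R.f g a = σ.restrictNormal L a)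
  (ht_gal : arith N L (σ.restrictNormal L) t = t)
  (hgal0 : ∀ b : B0, E.ι0 ((1 : L) ⊗ₜ[W] ((H.S g).σ0 b)) =
    arith N L (σ.restrictNormal L) (E.ι0 ((1 : L) ⊗ₜ[W] b)))
  (hgal1 : ∀ b : B1, E.ι1 ((1 : L) ⊗ₜ[W] ((H.S g).σ1 b)) =
    arith N L (σ.restrictNormal L) (E.ι1 ((1 : L) ⊗ₜ[W] b)))

include hR ht_gal hgal0 hgal1 in
/-- **Galois equivariance of `dOf`.** -/
theorem actPic_dOf (X : Divisor Qbar (Fbar N)) :
    actPic H R g (dOf ht E PF X) = dOf ht E PF (gal N σ • X) := by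
  unfold dOf
  rw [LevelMap.actPic_dmap ht E PF H R g σ hR ht_gal hgal0 hgal1, smul_neg]

end Gal

end Fermat.Agent.T1B.Bridge39
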