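/-
Programme T1B (S44), J-BRIDGE, brick (B2) DICT-FINAL-GEN (helper39): THE LEVEL MAPS `d_L`.

Input: `Fam : ChartIsoFamilyN A N K c0` (brick (B1)) and a torsion section `S : TorsSec N K p`
(`nonempty_torsSec`: exists as soon as `p ≠ 0`, `K` a number field): a number field `S.L₀ ⊇ K`,
normal over `ℚ`, and divisors `S.s x` of degree `0` representing the `p`-torsion points `x` of
`J₀(N)(ℚ̄)`, supported at `S.L₀`-rational places.

Output: for every finite NORMAL (over `ℚ`) `L ⊇ S.L₀` inside `ℚ̄`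
  `Fam.d S L hle : ↥(Pic0.torsion ℚ̄ (ℚ̄·F_N) p) → PicX c0 ↥L`,   `d x = [O(S.s x)]`
(SIGN: `d x` is the class of the line bundle `O(X)`, `X = S.s x`; `[O(-w)]` = the class of the ideal
sheaf of the point `w`), with
* (i)   `d_add`, `d_zero`        : multiplicative;
* (ii)  `d_injective`;
* (iii) `d_mem_picPt`           : values in `(pointClasses c0).PicPt L`;
* (iv)  `d_tower`               : `PicX.map c0 L₁ L (d_{L₁} x) = d_L x`;
* (v)   `d_galois`              : `d_L (σ • x) = PicX.mapSemi (chartAutRefl c0) (σ|_L) (d_L x)` for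
                                  `σ ∈ G_ℚ` fixing `K` pointwise (`L/ℚ` normal);
* (vi)  `d_spec`, `d_spec_mk`   : JSpec-2: `d_L x = cl D_A * (cl D_B)⁻¹` for ANY two ideal pairs with
                                  `divL (lp D_A) - divL (lp D_B) ∼ S.s x`, i.e. with
                                  `Pic0.mk (divL (lp D_A) - divL (lp D_B)) = x`.
-/
import Mathlib
import Fermat.Agent.T1B.Bridge39.LevelMaps
import Fermat.Agent.T1B.Bridge39.Family
import Fermat.Agent.T1.Dict22.TorsSection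
import Fermat.Agent.T1.Dict22.RatValueGal
import Fermat.Agent.T1.CentresClass47

set_option autoImplicit false
set_option linter.unusedSectionVars false
set_option linter.style.haveILetI false
set_option synthInstance.maxHeartbeats 400000
set_option maxHeartbeats 1000000

noncomputable section

open HahnSeries AlgebraicCurve ModularCurve IntermediateField TensorProduct
open Fermat.Agent.RED.Interface4
open Fermat.Agent.Jac Fermat.Agent.Jac.LineOps39 Fermat.Agent.Jac.JGroup85Pic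
open Fermat.Agent.Jac.AbelJacobi73 Fermat.Agent.T1.Adapt96 Fermat.Agent.T1.Adapt39
open Fermat.Agent.Jac.BaseChange75 Fermat.Agent.T1.RedIface75 Fermat.Agent.T1.PtLine75
open Fermat.Agent.T1.GalAct44 Fermat.Agent.T1.Dict67 Fermat.Agent.T1.HubInst98
open Fermat.Agent.T1.Dict59 Fermat.Agent.T1.CentresClass47
open scoped Fermat.Agent.Jac.BaseChange75

namespace Fermat.Agent.T1B.Bridge39

/-! ### Torsion sections -/

/-- A section of `Div⁰ → J₀(N)(ℚ̄)` over the `p`-torsion, with support rational over ONE number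
field `L₀ ⊇ K`, normal over `ℚ`. -/
structure TorsSec (N : ℕ) [NeZero N] (K : IntermediateField ℚ Qbar) (p : ℕ) where
  L₀ : IntermediateField ℚ Qbar
  fin₀ : FiniteDimensional ℚ L₀
  normal₀ : Normal ℚ L₀
  le₀ : K ≤ L₀
  /-- the section -/
  s : ↥(Pic0.torsion Qbar (modularFunctionFieldBar N) p) →
    Divisor.degZero (K := Qbar) (F := Fbar N)
  mk_s : ∀ x, Pic0.mk (s x) = (x : JZero N)
  rat_s : ∀ x w, (s x : Divisor Qbar (Fbar N)) w ≠ 0 → IsRatPlace L₀ w

theorem nonempty_torsSec (N : ℕ) [NeZero N] (K : IntermediateField ℚ Qbar)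
    [FiniteDimensional ℚ K] (p : ℕ) (hp : p ≠ 0) : Nonempty (TorsSec N K p) := by
  obtain ⟨L₀, hfin, hnorm, hle, D, hD, hrat⟩ :=
    Fermat.Agent.T1.Dict22.TorsSection.exists_torsion_section' N (p : ℤ)
      (Int.natCast_ne_zero.2 hp) K
  exact ⟨{ L₀ := L₀, fin₀ := hfin, normal₀ := hnorm, le₀ := hle
           s := fun x => D ⟨x.1, x.2⟩
           mk_s := fun x => hD ⟨x.1, x.2⟩
           rat_s := fun x => hrat ⟨x.1, x.2⟩ }⟩

/-! ### The trivial chart action and the Galois action on `L` -/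

/-- The subgroup of `G_ℚ` fixing `K` pointwise. -/
def fixK (K : IntermediateField ℚ Qbar) : Subgroup GQ where
  carrier := {σ | ∀ a ∈ K, σ a = a}
  mul_mem' := fun {σ τ} hσ hτ a ha => by
    show σ (τ a) = a
    rw [hτ a ha, hσ a ha]
  one_mem' := fun _ _ => rfl
  inv_mem' := fun {σ} hσ a ha => by
    show σ.symm a = a
    conv_lhs => rw [← hσ a ha]
    exact σ.symm_apply_apply a

theorem mem_fixK {K : IntermediateField ℚ Qbar} {σ : GQ} : σ ∈ fixK K ↔ ∀ a ∈ K, σ a = a :=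
  Iff.rfl

section Triv

variable {W B0 B1 B01 : Type} [CommRing W] [CommRing B0] [CommRing B1] [CommRing B01]
  [Algebra W B0] [Algebra W B1] [Algebra W B01] [Algebra B0 B01] [Algebra B1 B01]
  [IsScalarTower W B0 B01] [IsScalarTower W B1 B01]
  (c0 : TwoChart W B0 B1 B01)

/-- The trivial action of a group on the chart system. -/
def trivChartAction (G : Type) [Group G] : ChartAction c0 G where
  S := fun _ => chartAutRefl c0
  oneW := rfl
  one0 := rfl
  one1 := rfl
  one01 := rfl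
  mulW := fun _ _ => rfl
  mul0 := fun _ _ => rfl
  mul1 := fun _ _ => rfl
  mul01 := fun _ _ => rfl

end Triv

section Tower

variable (A : ValuationSubring Qbar) {K L₁ L : IntermediateField ℚ Qbar}

/-- `W = A ∩ K → L₁ → L` is a tower. -/
theorem isScalarTower_AKLL (h₁ : K ≤ L₁) (hL : L₁ ≤ L) :
    letI := algAKL A h₁
    letI := algAKL A (h₁.trans hL)
    letI := algKL hL
    IsScalarTower (AK A K) L₁ L := by
  letI := algAKL A h₁
  letI := algAKL A (h₁.trans hL)
  letI := algKL hL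
  exact IsScalarTower.of_algebraMap_eq (fun _ => rfl)

/-- `σ|_L` is `W`-linear when `σ` fixes `K` pointwise. -/
theorem resL_semi [Normal ℚ L] (hle : K ≤ L) (σ : GQ) (hσ : ∀ a ∈ K, σ a = a) :
    letI := algAKL A hle
    ∀ (w : AK A K) (a : L),
      ((resL L σ : L ≃ₐ[ℚ] L) : L →+* L) (w • a) = w • ((resL L σ : L ≃ₐ[ℚ] L) : L →+* L) a := by
  letI := algAKL A hle
  intro w a
  rw [Algebra.smul_def, Algebra.smul_def, map_mul]
  congr 1
  apply Subtype.ext
  show ((resL L σ (algebraMap (AK A K) L w) : L) : Qbar) = ((algebraMap (AK A K) L w : L) : Qbar)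
  rw [coe_resL]
  exact hσ _ (w : K).2

end Tower

variable {A : ValuationSubring Qbar} {N : ℕ} [NeZero N] {K : IntermediateField ℚ Qbar}
  {B0 B1 B01 : Type} [CommRing B0] [CommRing B1] [CommRing B01]
  [Algebra (AK A K) B0] [Algebra (AK A K) B1] [Algebra (AK A K) B01] [Algebra B0 B01]
  [Algebra B1 B01] [IsScalarTower (AK A K) B0 B01] [IsScalarTower (AK A K) B1 B01]
  {c0 : TwoChart (AK A K) B0 B1 B01}

/-- The action of `Gal(ℚ̄/K)` on `L ⊇ K` (normal over `ℚ`), as a semilinear action for the trivial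
chart action. -/
def semiActL (c0 : TwoChart (AK A K) B0 B1 B01) (L : IntermediateField ℚ Qbar) [Normal ℚ L]
    (hle : K ≤ L) :
    letI := algAKL A hle
    SemiAction (trivChartAction c0 ↥(fixK K)) ↥L :=
  letI := algAKL A hle
  { f := fun g => ((resL L (g : GQ) : L ≃ₐ[ℚ] L) : L →+* L)
    one := by
      apply RingHom.ext
      intro x
      show resL L ((1 : ↥(fixK K)) : GQ) x = x
      rw [Subgroup.coe_one, resL_one]
      rfl
    mul := fun g h => by
      apply RingHom.ext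
      intro x
      show resL L ((g * h : ↥(fixK K)) : GQ) x = resL L (g : GQ) (resL L (h : GQ) x)
      rw [Subgroup.coe_mul, resL_mul]
      rfl
    semi := fun g w a => resL_semi A hle (g : GQ) g.2 w a }

namespace ChartIsoFamilyN

variable (Fam : ChartIsoFamilyN A N K c0)

/-! ### One level -/

section Level

variable (L : IntermediateField ℚ Qbar) [FiniteDimensional ℚ L] [Normal ℚ L] (hle : K ≤ L)

include Fam in
theorem ded0 :
    letI := algAKL A hle
    IsDedekindDomain (↥L ⊗[AK A K] B0) :=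
  letI := algAKL A hle
  Fermat.Agent.T1.Dict84.isDedekindDomain_R0 (Fam.E L hle) (Fam.isCoord L hle)

include Fam in
theorem ded1 :
    letI := algAKL A hle
    IsDedekindDomain (↥L ⊗[AK A K] B1) :=
  letI := algAKL A hle
  Fermat.Agent.T1.Dict84.isDedekindDomain_R1 (Fam.E L hle) (Fam.isCoord L hle)

/-- **The class of `O(X)` in `Pic X_L`** (`X` a divisor of `ℚ̄·F_N`; only its `L`-rational part
counts). -/
def dDiv (X : Divisor Qbar (Fbar N)) :
    letI := algAKL A hle
    PicX c0 ↥L :=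
  letI := algAKL A hle
  haveI := Fam.ded0 L hle
  haveI := Fam.ded1 L hle
  dOf (Fam.isCoord L hle) (Fam.E L hle) (ptFacts c0 (Fam.E L hle)) X

theorem dDiv_add (X X' : Divisor Qbar (Fbar N)) :
    Fam.dDiv L hle (X + X') = Fam.dDiv L hle X * Fam.dDiv L hle X' := by
  letI := algAKL A hle
  haveI := Fam.ded0 L hle
  haveI := Fam.ded1 L hle
  exact dOf_add (Fam.isCoord L hle) (Fam.E L hle) (ptFacts c0 (Fam.E L hle)) X X'

theorem dDiv_zero : Fam.dDiv L hle 0 = 1 := by
  letI := algAKL A hle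
  haveI := Fam.ded0 L hle
  haveI := Fam.ded1 L hle
  exact dOf_zero (Fam.isCoord L hle) (Fam.E L hle) (ptFacts c0 (Fam.E L hle))

theorem dDiv_mem_picPt (X : Divisor Qbar (Fbar N)) :
    Fam.dDiv L hle X ∈ (letI := algAKL A hle; (pointClasses c0).PicPt ↥L) := by
  letI := algAKL A hle
  haveI := Fam.ded0 L hle
  haveI := Fam.ded1 L hle
  exact dOf_mem_picPt (Fam.isCoord L hle) (Fam.E L hle) (ptFacts c0 (Fam.E L hle)) X

theorem dDiv_eq_iff (X X' : Divisor Qbar (Fbar N)) (hX : ∀ w, X w ≠ 0 → IsRatPlace L w)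
    (hX' : ∀ w, X' w ≠ 0 → IsRatPlace L w) :
    Fam.dDiv L hle X = Fam.dDiv L hle X' ↔
      ∃ g : Fbar N, g ≠ 0 ∧ ∀ w : Place Qbar (Fbar N), X w - X' w = w.ord g := by
  letI := algAKL A hle
  haveI := Fam.ded0 L hle
  haveI := Fam.ded1 L hle
  exact dOf_eq_iff (Fam.isCoord L hle) (Fam.E L hle) (ptFacts c0 (Fam.E L hle)) X X' hX hX'

/-- **JSpec-2 for divisors.** -/
theorem dDiv_eq_cl_div (X : Divisor Qbar (Fbar N)) (hX : ∀ w, X w ≠ 0 → IsRatPlace L w) :
    letI := algAKL A hle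
    haveI := Fam.ded0 L hle
    haveI := Fam.ded1 L hle
    ∀ (DA DB : IdealPair (↥L ⊗[AK A K] B0) (↥L ⊗[AK A K] B1) (↥L ⊗[AK A K] B01))
      (hA : PairNeBot DA) (hB : PairNeBot DB) (g : Fbar N), g ≠ 0 →
      (∀ w : Place Qbar (Fbar N),
        LinePair.divL (Eff.lp (Fam.E L hle) DA hA) w -
          LinePair.divL (Eff.lp (Fam.E L hle) DB hB) w - X w = w.ord g) →
      Fam.dDiv L hle X =
        Eff.cl (c0.baseChange ↥L) DA hA * (Eff.cl (c0.baseChange ↥L) DB hB)⁻¹ := by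
  letI := algAKL A hle
  haveI := Fam.ded0 L hle
  haveI := Fam.ded1 L hle
  intro DA DB hA hB g hg hdiv
  exact dOf_eq_cl_div (Fam.isCoord L hle) (Fam.E L hle) (ptFacts c0 (Fam.E L hle)) X hX DA DB hA hB
    g hg hdiv

end Level

/-! ### Tower -/

theorem dDiv_tower (L₁ L : IntermediateField ℚ Qbar) [FiniteDimensional ℚ L₁]
    [FiniteDimensional ℚ L] [Normal ℚ L₁] [Normal ℚ L] (hle₁ : K ≤ L₁) (hL : L₁ ≤ L)
    (X : Divisor Qbar (Fbar N))
    (hX : ∀ w, X w ≠ 0 → IsRatPlace L₁ w) :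
    letI := algAKL A hle₁
    letI := algAKL A (hle₁.trans hL)
    letI := algKL hL
    haveI := isScalarTower_AKLL A hle₁ hL
    PicX.map c0 ↥L₁ ↥L (Fam.dDiv L₁ hle₁ X) = Fam.dDiv L (hle₁.trans hL) X := by
  letI := algAKL A hle₁
  letI := algAKL A (hle₁.trans hL)
  letI := algKL hL
  haveI := isScalarTower_AKLL A hle₁ hL
  haveI := Fam.ded0 L₁ hle₁
  haveI := Fam.ded1 L₁ hle₁
  haveI := Fam.ded0 L (hle₁.trans hL)
  haveI := Fam.ded1 L (hle₁.trans hL)
  exact map_dOf hL (fun _ => rfl) (Fam.isCoord L₁ hle₁) (Fam.isCoord L (hle₁.trans hL))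
    (Fam.E L₁ hle₁) (Fam.E L (hle₁.trans hL)) (ptFacts c0 (Fam.E L₁ hle₁))
    (ptFacts c0 (Fam.E L (hle₁.trans hL))) (Fam.t_tower L₁ L hle₁ hL)
    (Fam.tower0 L₁ L hle₁ hL) (Fam.tower1 L₁ L hle₁ hL) X hX

/-! ### Galois -/

theorem dDiv_galois (L : IntermediateField ℚ Qbar) [FiniteDimensional ℚ L] [Normal ℚ L]
    (hle : K ≤ L) (σ : GQ) (hσ : ∀ a ∈ K, σ a = a) (X : Divisor Qbar (Fbar N)) :
    letI := algAKL A hle
    PicX.mapSemi (chartAutRefl c0) ((resL L σ : L ≃ₐ[ℚ] L) : L →+* L) (resL_semi A hle σ hσ)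
      (Fam.dDiv L hle X) = Fam.dDiv L hle (gal N σ • X) := by
  letI := algAKL A hle
  haveI := Fam.ded0 L hle
  haveI := Fam.ded1 L hle
  exact actPic_dOf (Fam.isCoord L hle) (Fam.E L hle) (ptFacts c0 (Fam.E L hle))
    (trivChartAction c0 ↥(fixK K)) (semiActL c0 L hle) ⟨σ, hσ⟩ σ (fun _ => rfl)
    (Fam.t_gal L hle σ hσ) (fun b => (Fam.gal0 L hle σ hσ b).symm)
    (fun b => (Fam.gal1 L hle σ hσ b).symm) X

/-! ### The level maps on the `p`-torsion -/

variable {p : ℕ} (S : TorsSec N K p)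

/-- **The level map** `d_L : J₀(N)(ℚ̄)[p] → Pic X_L`, `x ↦ [O(S.s x)]`. -/
def d (L : IntermediateField ℚ Qbar) [FiniteDimensional ℚ L] [Normal ℚ L] (hle : S.L₀ ≤ L)
    (x : ↥(Pic0.torsion Qbar (modularFunctionFieldBar N) p)) :
    letI := algAKL A (S.le₀.trans hle)
    PicX c0 ↥L :=
  Fam.dDiv L (S.le₀.trans hle) (S.s x : Divisor Qbar (Fbar N))

section DLevel

variable (L : IntermediateField ℚ Qbar) [FiniteDimensional ℚ L] [Normal ℚ L] (hle : S.L₀ ≤ L)

include hle in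
theorem rat_s_le (x : ↥(Pic0.torsion Qbar (modularFunctionFieldBar N) p)) :
    ∀ w, (S.s x : Divisor Qbar (Fbar N)) w ≠ 0 → IsRatPlace L w :=
  fun w hw => Fermat.Agent.T1.Dict22.TorsSection.isRatPlace_mono hle (S.rat_s x w hw)

/-- (i) `d_L` is multiplicative. -/
theorem d_add (x y : ↥(Pic0.torsion Qbar (modularFunctionFieldBar N) p)) :
    Fam.d S L hle (x + y) = Fam.d S L hle x * Fam.d S L hle y := by
  unfold d
  rw [← dDiv_add]
  rw [dDiv_eq_iff Fam L (S.le₀.trans hle) _ _ (rat_s_le S L hle (x + y))]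
  · have h : Pic0.mk (S.s (x + y)) = Pic0.mk (S.s x + S.s y) := by
      rw [Pic0.mk_add, S.mk_s, S.mk_s, S.mk_s]
      rfl
    exact (pic0_mk_eq_iff _ _).1 h
  · intro w hw
    rw [Finsupp.add_apply] at hw
    by_cases h : (S.s x : Divisor Qbar (Fbar N)) w = 0
    · apply rat_s_le S L hle y w
      intro h'
      apply hw
      rw [h, h', add_zero]
    · exact rat_s_le S L hle x w h

/-- (ii) `d_L` is injective. -/
theorem d_injective : Function.Injective (Fam.d S L hle) := by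
  intro x y hxy
  unfold d at hxy
  rw [dDiv_eq_iff Fam L (S.le₀.trans hle) _ _ (rat_s_le S L hle x) (rat_s_le S L hle y)] at hxy
  have h := (pic0_mk_eq_iff (S.s x) (S.s y)).2 hxy
  rw [S.mk_s, S.mk_s] at h
  exact Subtype.ext h

theorem d_zero : Fam.d S L hle 0 = 1 := by
  have h := d_add Fam S L hle 0 0
  rw [add_zero] at h
  exact mul_eq_left.1 h.symm

/-- (iii) the values of `d_L` are point classes. -/
theorem d_mem_picPt (x : ↥(Pic0.torsion Qbar (modularFunctionFieldBar N) p)) :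
    Fam.d S L hle x ∈ (letI := algAKL A (S.le₀.trans hle); (pointClasses c0).PicPt ↥L) :=
  Fam.dDiv_mem_picPt L (S.le₀.trans hle) _

/-- (vi) **JSpec-2**, divisor form. -/
theorem d_spec (x : ↥(Pic0.torsion Qbar (modularFunctionFieldBar N) p)) :
    letI := algAKL A (S.le₀.trans hle)
    haveI := Fam.ded0 L (S.le₀.trans hle)
    haveI := Fam.ded1 L (S.le₀.trans hle)
    ∀ (DA DB : IdealPair (↥L ⊗[AK A K] B0) (↥L ⊗[AK A K] B1) (↥L ⊗[AK A K] B01))
      (hA : PairNeBot DA) (hB : PairNeBot DB) (g : Fbar N), g ≠ 0 →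
      (∀ w : Place Qbar (Fbar N),
        LinePair.divL (Eff.lp (Fam.E L (S.le₀.trans hle)) DA hA) w -
          LinePair.divL (Eff.lp (Fam.E L (S.le₀.trans hle)) DB hB) w -
            (S.s x : Divisor Qbar (Fbar N)) w = w.ord g) →
      Fam.d S L hle x =
        Eff.cl (c0.baseChange ↥L) DA hA * (Eff.cl (c0.baseChange ↥L) DB hB)⁻¹ :=
  Fam.dDiv_eq_cl_div L (S.le₀.trans hle) _ (rat_s_le S L hle x)

/-- (vi) **JSpec-2**: `d_L x = cl D_A * (cl D_B)⁻¹` for ANY two ideal pairs over `L` with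
`Pic0.mk (divL (lp D_A) - divL (lp D_B)) = x`. -/
theorem d_spec_mk (x : ↥(Pic0.torsion Qbar (modularFunctionFieldBar N) p)) :
    letI := algAKL A (S.le₀.trans hle)
    haveI := Fam.ded0 L (S.le₀.trans hle)
    haveI := Fam.ded1 L (S.le₀.trans hle)
    ∀ (DA DB : IdealPair (↥L ⊗[AK A K] B0) (↥L ⊗[AK A K] B1) (↥L ⊗[AK A K] B01))
      (hA : PairNeBot DA) (hB : PairNeBot DB)
      (hdeg : LinePair.divL (Eff.lp (Fam.E L (S.le₀.trans hle)) DA hA) -
          LinePair.divL (Eff.lp (Fam.E L (S.le₀.trans hle)) DB hB) ∈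
            Divisor.degZero (K := Qbar) (F := Fbar N)),
      Pic0.mk ⟨_, hdeg⟩ = (x : JZero N) →
      Fam.d S L hle x =
        Eff.cl (c0.baseChange ↥L) DA hA * (Eff.cl (c0.baseChange ↥L) DB hB)⁻¹ := by
  letI := algAKL A (S.le₀.trans hle)
  haveI := Fam.ded0 L (S.le₀.trans hle)
  haveI := Fam.ded1 L (S.le₀.trans hle)
  intro DA DB hA hB hdeg hx
  rw [← S.mk_s x] at hx
  obtain ⟨g, hg, h⟩ := (pic0_mk_eq_iff _ _).1 hx
  refine d_spec Fam S L hle x DA DB hA hB g hg fun w => ?_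
  have := h w
  rw [Finsupp.sub_apply] at this
  exact this

end DLevel

/-- (iv) **tower**: `PicX.map c0 L₁ L (d_{L₁} x) = d_L x`. -/
theorem d_tower (L₁ L : IntermediateField ℚ Qbar) [FiniteDimensional ℚ L₁]
    [FiniteDimensional ℚ L] [Normal ℚ L₁] [Normal ℚ L] (hle₁ : S.L₀ ≤ L₁) (hL : L₁ ≤ L)
    (x : ↥(Pic0.torsion Qbar (modularFunctionFieldBar N) p)) :
    letI := algAKL A (S.le₀.trans hle₁)
    letI := algAKL A ((S.le₀.trans hle₁).trans hL)
    letI := algKL hL
    haveI := isScalarTower_AKLL A (S.le₀.trans hle₁) hL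
    PicX.map c0 ↥L₁ ↥L (Fam.d S L₁ hle₁ x) = Fam.d S L (hle₁.trans hL) x :=
  Fam.dDiv_tower L₁ L (S.le₀.trans hle₁) hL _ (rat_s_le S L₁ hle₁ x)

/-- (v) **Galois**: `d_L (σ • x) = mapSemi (σ|_L) (d_L x)` for `σ` fixing `K` pointwise. -/
theorem d_galois (L : IntermediateField ℚ Qbar) [FiniteDimensional ℚ L] [Normal ℚ L]
    (hle : S.L₀ ≤ L) (σ : GQ) (hσ : ∀ a ∈ K, σ a = a)
    (x y : ↥(Pic0.torsion Qbar (modularFunctionFieldBar N) p))
    (hxy : (y : JZero N) = σ • (x : JZero N)) :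
    letI := algAKL A (S.le₀.trans hle)
    Fam.d S L hle y =
      PicX.mapSemi (chartAutRefl c0) ((resL L σ : L ≃ₐ[ℚ] L) : L →+* L)
        (resL_semi A (S.le₀.trans hle) σ hσ) (Fam.d S L hle x) := by
  unfold d
  rw [Fam.dDiv_galois L (S.le₀.trans hle) σ hσ]
  rw [dDiv_eq_iff Fam L (S.le₀.trans hle) _ _ (rat_s_le S L hle y)]
  · have h : Pic0.mk (S.s y) =
        Pic0.mk (SemilinearAut.degZeroSMulHom (gal N σ) (S.s x)) := by
      rw [S.mk_s, hxy, ← S.mk_s x]
      rfl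
    exact (pic0_mk_eq_iff _ _).1 h
  · intro w hw
    rw [SemilinearAut.divisor_smul_apply] at hw
    have h1 := Fermat.Agent.T1.Dict22.RatValue.isRatPlace_smul N L σ _ (rat_s_le S L hle x _ hw)
    rwa [smul_inv_smul] at h1

end ChartIsoFamilyN

end Fermat.Agent.T1B.Bridge39
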