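/-
Programme T1B (S44), J-BRIDGE, brick (B2) DICT-FINAL-GEN (helper39): the EXISTENCE companion of
JSpec-2 and the additive packaging of `d_L`.

* `exists_pairs_dOf`   (generic level): `∃ D_A D_B, divL (lp D_A) - divL (lp D_B) = X ∧
                         dOf X = cl D_A * (cl D_B)⁻¹`;
* `Fam.dDiv_exists_pairs`, `Fam.d_exists_pairs` : every `x ∈ J₀(N)(ℚ̄)[p]` IS presented by two integral
  ideal pairs over `L`: `Pic0.mk ⟨divL (lp D_A) - divL (lp D_B), _⟩ = x` and
  `d_L x = cl D_A * (cl D_B)⁻¹`;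
* `Fam.dHom S L hle : J₀(N)(ℚ̄)[p] →+ Additive (Pic X_L)`.
-/
import Mathlib
import Fermat.Agent.T1B.Bridge39.Final

set_option autoImplicit false
set_option linter.unusedSectionVars false
set_option linter.style.haveILetI false
set_option synthInstance.maxHeartbeats 400000
set_option maxHeartbeats 1000000

noncomputable section

open HahnSeries AlgebraicCurve ModularCurve IntermediateField TensorProduct
open Fermat.Agent.RED.Interface4
open Fermat.Agent.Jac Fermat.Agent.Jac.LineOps39 Fermat.Agent.Jac.JGroup85Pic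
open Fermat.Agent.Jac.AbelJacobi73 Fermat.Agent.T1.Adapt96 Fermat.Agent.T1.Adapt39
open Fermat.Agent.Jac.BaseChange75 Fermat.Agent.T1.RedIface75 Fermat.Agent.T1.PtLine75
open Fermat.Agent.T1.GalAct44 Fermat.Agent.T1.Dict67 Fermat.Agent.T1.HubInst98
open Fermat.Agent.T1.Dict59 Fermat.Agent.T1.CentresClass47
open scoped Fermat.Agent.Jac.BaseChange75

namespace Fermat.Agent.T1B.Bridge39

section Generic

variable {W B0 B1 B01 : Type} [CommRing W] [CommRing B0] [CommRing B1] [CommRing B01]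
  [Algebra W B0] [Algebra W B1] [Algebra W B01] [Algebra B0 B01] [Algebra B1 B01]
  [IsScalarTower W B0 B01] [IsScalarTower W B1 B01]
  {c0 : TwoChart W B0 B1 B01}
  {N : ℕ} [NeZero N] {L : IntermediateField ℚ Qbar} [Algebra W L] {t : FK N L}
  (ht : IsCoord N t) (E : ChartIso (c0.baseChange L) t)
  [IsDedekindDomain (L ⊗[W] B0)] [IsDedekindDomain (L ⊗[W] B1)]
  (PF : PtFacts c0 E)

/-- `dOf X` is a quotient of the classes of two integral ideal pairs with
`divL (lp D_A) - divL (lp D_B) = X`. -/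
theorem exists_pairs_dOf (X : Divisor Qbar (Fbar N)) (hX : ∀ w, X w ≠ 0 → IsRatPlace L w) :
    ∃ (DA DB : IdealPair (L ⊗[W] B0) (L ⊗[W] B1) (L ⊗[W] B01)) (hA : PairNeBot DA)
      (hB : PairNeBot DB),
      LinePair.divL (Eff.lp E DA hA) - LinePair.divL (Eff.lp E DB hB) = X ∧
      dOf ht E PF X =
        Eff.cl (c0.baseChange L) DA hA * (Eff.cl (c0.baseChange L) DB hB)⁻¹ := by
  obtain ⟨DA, DB, hA, hB, h1, h2⟩ := exists_pairs_dmap ht E PF (-X) (neg_ne_zero_imp hX)
  refine ⟨DA, DB, hA, hB, ?_, ?_⟩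
  · rw [← neg_sub, h2, neg_neg]
  · unfold dOf
    exact eq_mul_inv_iff_mul_eq.2 h1

end Generic

variable {A : ValuationSubring Qbar} {N : ℕ} [NeZero N] {K : IntermediateField ℚ Qbar}
  {B0 B1 B01 : Type} [CommRing B0] [CommRing B1] [CommRing B01]
  [Algebra (AK A K) B0] [Algebra (AK A K) B1] [Algebra (AK A K) B01] [Algebra B0 B01]
  [Algebra B1 B01] [IsScalarTower (AK A K) B0 B01] [IsScalarTower (AK A K) B1 B01]
  {c0 : TwoChart (AK A K) B0 B1 B01}

namespace ChartIsoFamilyN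

variable (Fam : ChartIsoFamilyN A N K c0)

theorem dDiv_exists_pairs (L : IntermediateField ℚ Qbar) [FiniteDimensional ℚ L] [Normal ℚ L]
    (hle : K ≤ L) (X : Divisor Qbar (Fbar N)) (hX : ∀ w, X w ≠ 0 → IsRatPlace L w) :
    letI := algAKL A hle
    haveI := Fam.ded0 L hle
    haveI := Fam.ded1 L hle
    ∃ (DA DB : IdealPair (↥L ⊗[AK A K] B0) (↥L ⊗[AK A K] B1) (↥L ⊗[AK A K] B01))
      (hA : PairNeBot DA) (hB : PairNeBot DB),
      LinePair.divL (Eff.lp (Fam.E L hle) DA hA) - LinePair.divL (Eff.lp (Fam.E L hle) DB hB) = X ∧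
      Fam.dDiv L hle X =
        Eff.cl (c0.baseChange ↥L) DA hA * (Eff.cl (c0.baseChange ↥L) DB hB)⁻¹ := by
  letI := algAKL A hle
  haveI := Fam.ded0 L hle
  haveI := Fam.ded1 L hle
  exact exists_pairs_dOf (Fam.isCoord L hle) (Fam.E L hle) (ptFacts c0 (Fam.E L hle)) X hX

variable {p : ℕ} (S : TorsSec N K p)
  (L : IntermediateField ℚ Qbar) [FiniteDimensional ℚ L] [Normal ℚ L] (hle : S.L₀ ≤ L)

/-- **Existence companion of JSpec-2**: every `x ∈ J₀(N)(ℚ̄)[p]` is presented over `L` by two integral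
ideal pairs. -/
theorem d_exists_pairs (x : ↥(Pic0.torsion Qbar (modularFunctionFieldBar N) p)) :
    letI := algAKL A (S.le₀.trans hle)
    haveI := Fam.ded0 L (S.le₀.trans hle)
    haveI := Fam.ded1 L (S.le₀.trans hle)
    ∃ (DA DB : IdealPair (↥L ⊗[AK A K] B0) (↥L ⊗[AK A K] B1) (↥L ⊗[AK A K] B01))
      (hA : PairNeBot DA) (hB : PairNeBot DB)
      (hdeg : LinePair.divL (Eff.lp (Fam.E L (S.le₀.trans hle)) DA hA) -
          LinePair.divL (Eff.lp (Fam.E L (S.le₀.trans hle)) DB hB) ∈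
            Divisor.degZero (K := Qbar) (F := Fbar N)),
      Pic0.mk ⟨_, hdeg⟩ = (x : JZero N) ∧
      Fam.d S L hle x =
        Eff.cl (c0.baseChange ↥L) DA hA * (Eff.cl (c0.baseChange ↥L) DB hB)⁻¹ := by
  letI := algAKL A (S.le₀.trans hle)
  haveI := Fam.ded0 L (S.le₀.trans hle)
  haveI := Fam.ded1 L (S.le₀.trans hle)
  obtain ⟨DA, DB, hA, hB, h1, h2⟩ := Fam.dDiv_exists_pairs L (S.le₀.trans hle)
    (S.s x : Divisor Qbar (Fbar N)) (rat_s_le S L hle x)
  have hdeg : LinePair.divL (Eff.lp (Fam.E L (S.le₀.trans hle)) DA hA) -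
      LinePair.divL (Eff.lp (Fam.E L (S.le₀.trans hle)) DB hB) ∈
        Divisor.degZero (K := Qbar) (F := Fbar N) := by
    rw [h1]
    exact (S.s x).2
  refine ⟨DA, DB, hA, hB, hdeg, ?_, h2⟩
  rw [← S.mk_s x]
  congr 1
  exact Subtype.ext h1

/-- `d_L` as an additive homomorphism. -/
def dHom :
    letI := algAKL A (S.le₀.trans hle)
    ↥(Pic0.torsion Qbar (modularFunctionFieldBar N) p) →+ Additive (PicX c0 ↥L) :=
  letI := algAKL A (S.le₀.trans hle)
  AddMonoidHom.mk' (fun x => Additive.ofMul (Fam.d S L hle x))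
    (fun x y => congrArg Additive.ofMul (Fam.d_add S L hle x y))

theorem dHom_apply (x : ↥(Pic0.torsion Qbar (modularFunctionFieldBar N) p)) :
    Fam.dHom S L hle x = Additive.ofMul (Fam.d S L hle x) := rfl

theorem dHom_injective : Function.Injective (Fam.dHom S L hle) := fun x y h =>
  Fam.d_injective S L hle (Additive.ofMul.injective h)

end ChartIsoFamilyN

end Fermat.Agent.T1B.Bridge39
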